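/-
S30 row, piece FIN / F1c (helper49): ROOT + character, in the language of `S29.M4b.Defs`.

A good function `G` (holomorphic, `Γ₀(N)`-invariant, exponential growth at the cusps), not
identically zero, all of whose orders of vanishing on `ℍ` are divisible by `m`, is the `m`-th
power of a twisted function `U` of some character `c : Γ₀(N) → ℤ/m`.
Uses the landed ROOT lemma `Fermat.Agent.S29.H751`.
-/
import Fermat.Agent.S29.M4b.Defs
import Fermat.Agent.S29.H751.PthRootUHP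

set_option autoImplicit false

noncomputable section

open ModularCurve AlgebraicCurve CongruenceSubgroup UpperHalfPlane
open scoped MatrixGroups Manifold

namespace Fermat.Agent.S30.Fin

open Fermat.Agent.S24 Fermat.Agent.S29 Fermat.Agent.S29.M4b

/-- An `m`-th root of unity is a power `ζ_m ^ k`, `k < m`. -/
theorem root_eq_zetaP_pow (m : ℕ) [NeZero m] {z : ℂ} (hz : z ^ m = 1) :
    ∃ k : ℕ, k < m ∧ zetaP m ^ k = z :=
  (Complex.isPrimitiveRoot_exp m (NeZero.ne m)).eq_pow_of_pow_eq_one hz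

/-- **F1c.** -/
theorem exists_isTwisted_of_pow (N m : ℕ) [NeZero m] {G : ℍ → ℂ} (hG : G ∈ H648.goodRing N)
    (hG0 : ∃ τ : ℍ, G τ ≠ 0)
    (hord : ∀ τ : ℍ, ∃ k : ℕ, analyticOrderAt (G ∘ ofComplex) (τ : ℂ) = ((m * k : ℕ) : ℕ∞)) :
    ∃ (U : ℍ → ℂ) (c : G0 N → ZMod m), IsTwisted N m c U ∧ ∀ τ : ℍ, U τ ^ m = G τ := by
  classical
  have hm : m ≠ 0 := NeZero.ne m
  obtain ⟨hGd, hGinv, -⟩ := (H648.mem_goodRing N).mp hG
  obtain ⟨U, hU, hUG⟩ := H751.exists_pow_eq_UHP hGd m hm hord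
  obtain ⟨τ₁, hτ₁⟩ := hG0
  have hU1 : U τ₁ ≠ 0 := by
    intro h0
    apply hτ₁
    rw [← hUG τ₁, h0, zero_pow hm]
  -- the constant attached to `γ`
  have key : ∀ γ : G0 N, ∃ k : ℕ, k < m ∧
      ∀ τ : ℍ, U (((γ : G0 N) : SL(2, ℤ)) • τ) = zetaP m ^ k * U τ := by
    intro γ
    have hpow : ∀ τ : ℍ, U (((γ : G0 N) : SL(2, ℤ)) • τ) ^ m = U τ ^ m := by
      intro τ
      rw [hUG, hUG, hGinv _ γ.2 τ]
    have hA1 : U (((γ : G0 N) : SL(2, ℤ)) • τ₁) ≠ 0 := by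
      intro h0
      have := hpow τ₁
      rw [h0, zero_pow hm] at this
      exact pow_ne_zero m hU1 this.symm
    set z : ℂ := U (((γ : G0 N) : SL(2, ℤ)) • τ₁) / U τ₁ with hz
    have hzp : z ^ m = 1 := by
      rw [hz, div_pow, hpow τ₁, div_self (pow_ne_zero m hU1)]
    obtain ⟨k, hk, hkz⟩ := root_eq_zetaP_pow m hzp
    refine ⟨k, hk, ?_⟩
    have hAd : MDifferentiable 𝓘(ℂ) 𝓘(ℂ) (fun τ : ℍ => U (((γ : G0 N) : SL(2, ℤ)) • τ)) :=
      H648.mdifferentiable_comp_smul hU _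
    have hBd : MDifferentiable 𝓘(ℂ) 𝓘(ℂ) (fun τ : ℍ => z * U τ) :=
      (mdifferentiable_const (c := z)).mul hU
    have := H751.eq_of_pow_eq_UHP hAd hBd hm (fun τ => by
      show U (((γ : G0 N) : SL(2, ℤ)) • τ) ^ m = (z * U τ) ^ m
      rw [hpow τ, mul_pow, hzp, one_mul]) (τ₀ := τ₁)
      (by
        show U (((γ : G0 N) : SL(2, ℤ)) • τ₁) = z * U τ₁
        rw [hz, div_mul_cancel₀ _ hU1]) hA1
    intro τ
    rw [hkz]
    exact congrFun this τ
  choose k hk hkU using key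
  refine ⟨U, fun γ => (k γ : ZMod m), ⟨hU, ⟨τ₁, hU1⟩, ?_, ?_⟩, hUG⟩
  · intro γ τ
    rw [ZMod.val_natCast, Nat.mod_eq_of_lt (hk γ)]
    exact hkU γ τ
  · have : (fun τ => U τ ^ m) = G := funext hUG
    rw [this]
    exact hG

end Fermat.Agent.S30.Fin
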