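/-
S30 row, piece FIN (helper49): ONTO = every `m`-torsion class of `J₀(N)(ℚ̄)` is the Kummer class of
some character, and the final statement `finite_torsion_of_pieces`.

Everything here is PROVED; the three genuinely geometric inputs are explicit hypotheses
(`Props` below), to be proved by the owners of the S24/S29 dictionary:

* `ClearStatement N m`  (F1a, pole clearing + realisation): every `f ≠ 0` in `FF N` becomes, after
  multiplication by an `m`-th power `t ^ m`, the `q`-expansion of a good function;
* `NonzeroStatement N`  (F1nz): a good function realising a nonzero element is not identically `0`;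
* `OrderStatement N m`  (F1b, dictionary, easy direction): if `m • D = div f` then every order of
  vanishing on `ℍ` of a good function realising `f * t ^ m` is divisible by `m`;
* `UniqStatement N m`   (F2 = piece `K4-UNIQ` of S29/M4b).
-/
import Fermat.Agent.S30.Fin.Count
import Fermat.Agent.S30.Fin.Root

set_option autoImplicit false

noncomputable section

open ModularCurve AlgebraicCurve CongruenceSubgroup UpperHalfPlane
open scoped MatrixGroups Manifold

namespace Fermat.Agent.S30.Fin

open Fermat.Agent.S24 Fermat.Agent.S29 Fermat.Agent.S29.M4b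

/-- F1a: pole clearing + realisation. -/
def ClearStatement (N m : ℕ) [NeZero N] : Prop :=
  ∀ f : FF N, f ≠ 0 → ∃ (t : FF N) (G : ℍ → ℂ), t ≠ 0 ∧ Realises N (f * t ^ m) G

/-- F1nz: a good function realising a nonzero element of the function field is not `0`. -/
def NonzeroStatement (N : ℕ) [NeZero N] : Prop :=
  ∀ (u : FF N) (G : ℍ → ℂ), u ≠ 0 → Realises N u G → ∃ τ : ℍ, G τ ≠ 0

/-- F1b: the dictionary, from places to points of `ℍ`. -/
def OrderStatement (N m : ℕ) [NeZero N] : Prop :=
  ∀ (f t : FF N) (x : JZero N) (G : ℍ → ℂ), t ≠ 0 → H455.IsKummerClass (m : ℤ) f x →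
    Realises N (f * t ^ m) G →
      ∀ τ : ℍ, ∃ k : ℕ, analyticOrderAt (G ∘ ofComplex) (τ : ℂ) = ((m * k : ℕ) : ℕ∞)

/-- F2 = `K4-UNIQ` of S29/M4b. -/
def UniqStatement (N m : ℕ) [NeZero N] : Prop :=
  ∀ (c : G0 N → ZMod m) (x x' : JZero N), IsKum N m c x → IsKum N m c x' → x = x'

/-- **ONTO**: every `m`-torsion class is a Kummer class. -/
theorem exists_isKum_of_torsion (N m : ℕ) [NeZero N] [NeZero m]
    (hclear : ClearStatement N m) (hnz : NonzeroStatement N) (hord : OrderStatement N m)
    (x : JZero N) (hx : (m : ℤ) • x = 0) : ∃ c : G0 N → ZMod m, IsKum N m c x := by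
  obtain ⟨f, hf⟩ := H455.exists_isKummerClass_of_zsmul_eq_zero hx
  obtain ⟨t, G, ht, hG⟩ := hclear f hf.ne_zero
  have hft : f * t ^ m ≠ 0 := mul_ne_zero hf.ne_zero (pow_ne_zero m ht)
  obtain ⟨U, c, hU, hUG⟩ :=
    exists_isTwisted_of_pow N m hG.1 (hnz _ G hft hG) (hord f t x G ht hf hG)
  refine ⟨c, f, t, U, ht, hf, hU, ?_⟩
  have : (fun τ => U τ ^ m) = G := funext hUG
  rw [this]
  exact hG

/-- **FIN**: the `m`-torsion of `J₀(N)(ℚ̄)` is finite. -/
theorem finite_torsion_of_pieces (N m : ℕ) [NeZero N] [NeZero m]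
    (hclear : ClearStatement N m) (hnz : NonzeroStatement N) (hord : OrderStatement N m)
    (huniq : UniqStatement N m) : {x : JZero N | (m : ℤ) • x = 0}.Finite :=
  finite_torsion_of N m (exists_isKum_of_torsion N m hclear hnz hord) huniq

end Fermat.Agent.S30.Fin
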